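import Mathlib

/-!
# Row LT, tower T6, sub-leaf T6.15c4 (helper98): the Newton iteration for quadratic equations

`K` a field with a valuation in `ℤᵐ⁰` whose uniform structure is complete.  If
`v b < v a ^ 2` then `X² + a X + b` has a root in `K` (`X = -a Y`, `Y = Y² + b / a²`, the
iteration `Y₀ = 0`, `Y_{n+1} = Y_n² + c` is a Cauchy sequence).  Mathlib only.
-/

set_option autoImplicit false

noncomputable section

namespace Fermat.Agent.LT.T6.H98

open WithZero Filter Topology

/-- Powers of an element `< 1` of `ℤᵐ⁰` become smaller than every nonzero element. -/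
theorem exists_pow_lt98 (x r : WithZero (Multiplicative ℤ)) (hx : x < 1) (hr : r ≠ 0) :
    ∃ N : ℕ, x ^ (N + 1) < r := by
  by_cases hx0 : x = 0
  · refine ⟨0, ?_⟩
    rw [hx0, zero_add, pow_one]
    exact zero_lt_iff.mpr hr
  · have hlx : log x < 0 := by
      rw [log_lt_iff_lt_exp hx0, exp_zero]
      exact hx
    refine ⟨(log r).natAbs, ?_⟩
    have hne : x ^ ((log r).natAbs + 1) ≠ 0 := pow_ne_zero _ hx0
    rw [← log_lt_log hne hr, log_pow]
    have h1 : ((log r).natAbs : ℤ) = |log r| := Int.natCast_natAbs _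
    have h2 : -|log r| ≤ log r := neg_abs_le _
    have h3 : (((log r).natAbs + 1 : ℕ) : ℤ) = |log r| + 1 := by
      simp
    rw [nsmul_eq_mul, h3]
    have h4 : (|log r| + 1) * log x ≤ (|log r| + 1) * (-1) := by
      apply mul_le_mul_of_nonneg_left
      · omega
      · positivity
    have h5 : 0 ≤ |log r| := abs_nonneg _
    linarith

variable {K : Type} [Field K] [Valued K (WithZero (Multiplicative ℤ))]

/-- The iteration `Y₀ = 0`, `Y_{n+1} = Y_n² + c`. -/
def newtonSeq98 (c : K) : ℕ → K
  | 0 => 0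
  | (n + 1) => newtonSeq98 c n ^ 2 + c

omit [Valued K (WithZero (Multiplicative ℤ))] in
theorem newtonSeq98_succ (c : K) (n : ℕ) :
    newtonSeq98 c (n + 1) = newtonSeq98 c n ^ 2 + c := rfl

theorem newtonSeq98_le (c : K) (hc : Valued.v c ≤ 1) (n : ℕ) :
    Valued.v (newtonSeq98 c n) ≤ Valued.v c := by
  induction n with
  | zero => simp [newtonSeq98]
  | succ n ih =>
    rw [newtonSeq98_succ]
    refine (Valuation.map_add _ _ _).trans (max_le ?_ le_rfl)
    rw [map_pow]
    calc Valued.v (newtonSeq98 c n) ^ 2 ≤ Valued.v c ^ 2 := pow_le_pow_left₀ zero_le ih 2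
      _ = Valued.v c * Valued.v c := sq _
      _ ≤ Valued.v c * 1 := mul_le_mul' le_rfl hc
      _ = Valued.v c := mul_one _

theorem newtonSeq98_step (c : K) (hc : Valued.v c ≤ 1) (n : ℕ) :
    Valued.v (newtonSeq98 c (n + 1) - newtonSeq98 c n) ≤ Valued.v c ^ (n + 1) := by
  induction n with
  | zero => simp [newtonSeq98]
  | succ n ih =>
    have h1 : newtonSeq98 c (n + 1 + 1) - newtonSeq98 c (n + 1)
        = (newtonSeq98 c (n + 1) - newtonSeq98 c n)
          * (newtonSeq98 c (n + 1) + newtonSeq98 c n) := by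
      rw [newtonSeq98_succ c (n + 1), newtonSeq98_succ c n]
      ring
    rw [h1, map_mul, pow_succ (Valued.v c) (n + 1)]
    refine mul_le_mul' ih ?_
    exact (Valuation.map_add _ _ _).trans
      (max_le (newtonSeq98_le c hc _) (newtonSeq98_le c hc _))

theorem newtonSeq98_tail (c : K) (hc : Valued.v c ≤ 1) (n j : ℕ) :
    Valued.v (newtonSeq98 c (n + j) - newtonSeq98 c n) ≤ Valued.v c ^ (n + 1) := by
  induction j with
  | zero => simp
  | succ j ih =>
    have h1 : newtonSeq98 c (n + (j + 1)) - newtonSeq98 c n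
        = (newtonSeq98 c (n + j + 1) - newtonSeq98 c (n + j))
          + (newtonSeq98 c (n + j) - newtonSeq98 c n) := by
      rw [← add_assoc]
      ring
    rw [h1]
    refine (Valuation.map_add _ _ _).trans (max_le ?_ ih)
    refine (newtonSeq98_step c hc (n + j)).trans ?_
    exact pow_le_pow_right_of_le_one' hc (by omega)

theorem newtonSeq98_cauchy (c : K) (hc : Valued.v c < 1) : CauchySeq (newtonSeq98 c) := by
  rw [Filter.HasBasis.cauchySeq_iff (Valued.hasBasis_uniformity K _)]
  intro γ _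
  have hr : MonoidWithZeroHom.ValueGroup₀.embedding γ.1 ≠ 0 := by
    intro h0
    exact γ.ne_zero ((map_eq_zero _).mp h0)
  obtain ⟨N, hN⟩ := exists_pow_lt98 (Valued.v c) _ hc hr
  refine ⟨N, fun m hm n hn => ?_⟩
  show (Valued.v : Valuation K _).restrict (newtonSeq98 c n - newtonSeq98 c m) < γ.1
  rw [Valuation.restrict_lt_iff_lt_embedding]
  refine lt_of_le_of_lt ?_ hN
  obtain ⟨j, rfl⟩ := Nat.exists_eq_add_of_le hm
  obtain ⟨j', rfl⟩ := Nat.exists_eq_add_of_le hn
  have h1 : newtonSeq98 c (N + j') - newtonSeq98 c (N + j)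
      = (newtonSeq98 c (N + j') - newtonSeq98 c N)
        - (newtonSeq98 c (N + j) - newtonSeq98 c N) := by ring
  rw [h1]
  exact (Valuation.map_sub _ _ _).trans
    (max_le (newtonSeq98_tail c hc.le N j') (newtonSeq98_tail c hc.le N j))

/-- The fixed point equation `y = y² + c` has a solution for `v c < 1`. -/
theorem exists_fixed98 [CompleteSpace K] (c : K) (hc : Valued.v c < 1) :
    ∃ y : K, y = y ^ 2 + c := by
  obtain ⟨y, hy⟩ := cauchySeq_tendsto_of_complete (newtonSeq98_cauchy c hc)
  refine ⟨y, ?_⟩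
  have h1 : Tendsto (fun n => newtonSeq98 c (n + 1)) atTop (𝓝 y) :=
    (tendsto_add_atTop_iff_nat 1).mpr hy
  have h2 : Tendsto (fun n => newtonSeq98 c (n + 1)) atTop (𝓝 (y ^ 2 + c)) := by
    have := (hy.pow 2).add_const c
    exact this
  exact tendsto_nhds_unique h1 h2

/-- **Newton's lemma for quadratic polynomials.**  In a complete field with a valuation in
`ℤᵐ⁰`, the polynomial `X² + a X + b` with `v b < v a ^ 2` has a root. -/
theorem exists_root_quadratic98 [CompleteSpace K] (a b : K)
    (h : Valued.v b < Valued.v a ^ 2) : ∃ x : K, x ^ 2 + a * x + b = 0 := by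
  have ha : a ≠ 0 := by
    rintro rfl
    simp at h
  have hva : Valued.v a ≠ 0 := (Valuation.ne_zero_iff _).mpr ha
  have hc : Valued.v (b / a ^ 2) < 1 := by
    rw [map_div₀, map_pow]
    exact (div_lt_one₀ (zero_lt_iff.mpr (pow_ne_zero 2 hva))).mpr h
  obtain ⟨y, hy⟩ := exists_fixed98 (b / a ^ 2) hc
  refine ⟨-a * y, ?_⟩
  have h1 : b = a ^ 2 * (y - y ^ 2) := by
    have : b / a ^ 2 = y - y ^ 2 := by linear_combination -hy
    field_simp at this
    linear_combination this
  rw [h1]
  ring

end Fermat.Agent.LT.T6.H98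

end
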