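import Mathlib
import Fermat.Agent.LT.T6.Spec
import Fermat.Agent.LT.T6.H159.VanishSpec
import Fermat.Agent.LT.T6.H159.NormSpec
import Fermat.Agent.LT.T6.H98.NewtonAbs

/-!
# Row LT, tower T6, sub-leaf T6.15c2 `NewtonC` (spare copy, helper98)

Corollary of `exists_root_quadratic98`: `X² - τ X + d` with `|d| = 1 < |τ|` has a root.
-/

set_option autoImplicit false

noncomputable section

namespace Fermat.Agent.LT.T6.H98

open Fermat.Agent.LT.T6

/-- **T6.15c2 `NewtonC`.** -/
theorem newtonC98 : H159.NewtonC := by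
  intro k _ _ q hk τ d hd hτ
  haveI : CompleteSpace k := hk.complete
  obtain ⟨x, hx⟩ := exists_root_quadratic98 (-τ) d (by
    rw [Valuation.map_neg, hd]
    exact one_lt_pow₀ hτ (by norm_num))
  exact ⟨x, by linear_combination hx⟩

end Fermat.Agent.LT.T6.H98

end
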