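import Mathlib
import Fermat.Agent.LT.T6.H98.NewtonAbs

/-!
# Row LT, tower T6, sub-leaf T6.15c4 (helper98): the descent on the discriminant

`k` a complete field with a normalised valuation in `ℤᵐ⁰`, `f = X² - τ X + δ` a polynomial all
of whose values on `k` are nonzero of EVEN order (`EvenVal98`).  Then an affine substitution
`X = c X' + e` turns `f` into `c² (X'² - τ' X' + δ')` with `τ', δ'` integral and
`X'² - τ' X' + δ'` without a root modulo the maximal ideal (`normalise98`).  Mathlib only.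
-/

set_option autoImplicit false

noncomputable section

namespace Fermat.Agent.LT.T6.H98

open WithZero

/-! ## The value group `ℤᵐ⁰` -/

theorem lt_one_iff98 (x : WithZero (Multiplicative ℤ)) : x < 1 ↔ x ≤ exp (-1 : ℤ) := by
  by_cases hx : x = 0
  · subst hx
    simp
  · rw [← exp_log hx, ← exp_zero (M := ℤ), exp_lt_exp, exp_le_exp]
    omega

theorem exists_le_exp98 (x : WithZero (Multiplicative ℤ)) : ∃ M : ℕ, x ≤ exp (M : ℤ) := by
  by_cases hx : x = 0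
  · subst hx
    exact ⟨0, by simp⟩
  · refine ⟨(log x).toNat, ?_⟩
    rw [← log_le_iff_le_exp hx]
    exact Int.self_le_toNat _

variable {k : Type} [Field k] [Valued k (WithZero (Multiplicative ℤ))]

theorem val_two_le98 : Valued.v (2 : k) ≤ 1 := by
  have h : (2 : k) = 1 + 1 := by norm_num
  rw [h]
  refine (Valuation.map_add _ _ _).trans ?_
  simp

theorem val_four_le98 : Valued.v (4 : k) ≤ 1 := by
  have h : (4 : k) = 2 * 2 := by norm_num
  rw [h, map_mul]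
  exact mul_le_one' val_two_le98 val_two_le98

/-- All values of `X² - τ X + δ` on `k` are nonzero of even order. -/
def EvenVal98 (τ δ : k) : Prop :=
  ∀ x : k, ∃ m : ℤ, Valued.v (x ^ 2 - τ * x + δ) = exp (2 * m)

theorem EvenVal98.translate {τ δ : k} (h : EvenVal98 τ δ) (x0 : k) :
    EvenVal98 (τ - 2 * x0) (x0 ^ 2 - τ * x0 + δ) := by
  intro x
  obtain ⟨m, hm⟩ := h (x + x0)
  refine ⟨m, ?_⟩
  rw [← hm]
  congr 1
  ring

theorem EvenVal98.scale {τ δ ϖ : k} (h : EvenVal98 τ δ) (hϖ : Valued.v ϖ = exp (-1 : ℤ)) :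
    EvenVal98 (τ / ϖ) (δ / ϖ ^ 2) := by
  have hϖ0 : ϖ ≠ 0 := by
    intro h0
    rw [h0, map_zero] at hϖ
    exact exp_ne_zero hϖ.symm
  intro x
  obtain ⟨m, hm⟩ := h (ϖ * x)
  refine ⟨m + 1, ?_⟩
  have h1 : x ^ 2 - τ / ϖ * x + δ / ϖ ^ 2 = ((ϖ * x) ^ 2 - τ * (ϖ * x) + δ) / ϖ ^ 2 := by
    field_simp
  rw [h1, map_div₀, hm, map_pow, hϖ, ← exp_nsmul, ← exp_sub]
  congr 1
  simp only [nsmul_eq_mul]
  push_cast
  ring

/-- One step of the descent. -/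
theorem step98 [CompleteSpace k] (τ δ : k) (hτ : Valued.v τ ≤ 1) (hδ : Valued.v δ ≤ 1)
    (hE : EvenVal98 τ δ) :
    (∀ x : k, Valued.v x ≤ 1 → Valued.v (x ^ 2 - τ * x + δ) = 1) ∨
    ∃ x0 : k, Valued.v (τ - 2 * x0) < 1 ∧ Valued.v (x0 ^ 2 - τ * x0 + δ) ≤ exp (-2 : ℤ) := by
  by_cases hc : ∀ x : k, Valued.v x ≤ 1 → Valued.v (x ^ 2 - τ * x + δ) = 1
  · exact Or.inl hc
  · right
    push Not at hc
    obtain ⟨x0, hx0, hne⟩ := hc
    have hle : Valued.v (x0 ^ 2 - τ * x0 + δ) ≤ 1 := by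
      refine (Valuation.map_add _ _ _).trans (max_le ?_ hδ)
      refine (Valuation.map_sub _ _ _).trans (max_le ?_ ?_)
      · rw [map_pow]
        exact pow_le_one' hx0 2
      · rw [map_mul]
        exact mul_le_one' hτ hx0
    have hlt : Valued.v (x0 ^ 2 - τ * x0 + δ) < 1 := lt_of_le_of_ne hle hne
    have hτ1 : Valued.v (τ - 2 * x0) ≤ 1 := by
      refine (Valuation.map_sub _ _ _).trans (max_le hτ ?_)
      rw [map_mul]
      exact mul_le_one' val_two_le98 hx0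
    refine ⟨x0, ?_, ?_⟩
    · refine lt_of_le_of_ne hτ1 ?_
      intro h1
      obtain ⟨z, hz⟩ := exists_root_quadratic98 (2 * x0 - τ) (x0 ^ 2 - τ * x0 + δ) (by
        have : Valued.v (2 * x0 - τ) = 1 := by
          rw [← Valuation.map_neg, neg_sub]
          exact h1
        rw [this, one_pow]
        exact hlt)
      obtain ⟨m, hm⟩ := hE (x0 + z)
      have h0 : (x0 + z) ^ 2 - τ * (x0 + z) + δ = 0 := by linear_combination hz
      rw [h0, map_zero] at hm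
      exact exp_ne_zero hm.symm
    · obtain ⟨m, hm⟩ := hE x0
      rw [hm] at hlt ⊢
      rw [← exp_zero (M := ℤ), exp_lt_exp] at hlt
      rw [exp_le_exp]
      omega

/-- **The descent.**  Integral `τ, δ`, discriminant of order at most `n`. -/
theorem descent98 [CompleteSpace k] (ϖ : k) (hϖ : Valued.v ϖ = exp (-1 : ℤ)) :
    ∀ (n : ℕ) (τ δ : k), Valued.v τ ≤ 1 → Valued.v δ ≤ 1 →
      exp (-(n : ℤ)) ≤ Valued.v (τ ^ 2 - 4 * δ) → EvenVal98 τ δ →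
      ∃ c e τ' δ' : k, c ≠ 0 ∧ τ' * c = τ - 2 * e ∧ δ' * c ^ 2 = e ^ 2 - τ * e + δ ∧
        Valued.v τ' ≤ 1 ∧ Valued.v δ' ≤ 1 ∧
        ∀ x : k, Valued.v x ≤ 1 → Valued.v (x ^ 2 - τ' * x + δ') = 1 := by
  have hϖ0 : ϖ ≠ 0 := by
    intro h0
    rw [h0, map_zero] at hϖ
    exact exp_ne_zero hϖ.symm
  intro n
  induction n with
  | zero =>
    intro τ δ hτ hδ hD hE
    rcases step98 τ δ hτ hδ hE with hc | ⟨x0, h1, h2⟩
    · exact ⟨1, 0, τ, δ, one_ne_zero, by ring, by ring, hτ, hδ, hc⟩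
    · exfalso
      have hD' : τ ^ 2 - 4 * δ = (τ - 2 * x0) ^ 2 - 4 * (x0 ^ 2 - τ * x0 + δ) := by ring
      have hlt : Valued.v (τ ^ 2 - 4 * δ) < 1 := by
        rw [hD']
        refine lt_of_le_of_lt (Valuation.map_sub _ _ _) (max_lt ?_ ?_)
        · rw [map_pow]
          exact pow_lt_one' h1 (by norm_num)
        · rw [map_mul]
          refine lt_of_le_of_lt (mul_le_mul' val_four_le98 h2) ?_
          rw [one_mul, ← exp_zero (M := ℤ), exp_lt_exp]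
          norm_num
      have : exp (-((0 : ℕ) : ℤ)) = (1 : WithZero (Multiplicative ℤ)) := by simp
      rw [this] at hD
      exact absurd hlt (not_lt.mpr hD)
  | succ n ih =>
    intro τ δ hτ hδ hD hE
    rcases step98 τ δ hτ hδ hE with hc | ⟨x0, h1, h2⟩
    · exact ⟨1, 0, τ, δ, one_ne_zero, by ring, by ring, hτ, hδ, hc⟩
    · have hE1 := (hE.translate x0).scale hϖ
      have hτ2 : Valued.v ((τ - 2 * x0) / ϖ) ≤ 1 := by
        rw [map_div₀, hϖ]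
        rw [lt_one_iff98] at h1
        exact (div_le_one₀ (by simp)).mpr h1
      have hδ2 : Valued.v ((x0 ^ 2 - τ * x0 + δ) / ϖ ^ 2) ≤ 1 := by
        rw [map_div₀, map_pow, hϖ]
        refine (div_le_one₀ (by simp)).mpr ?_
        refine h2.trans (le_of_eq ?_)
        rw [← exp_nsmul]
        congr 1
      have hD2 : exp (-(n : ℤ)) ≤ Valued.v (((τ - 2 * x0) / ϖ) ^ 2
          - 4 * ((x0 ^ 2 - τ * x0 + δ) / ϖ ^ 2)) := by
        have h3 : ((τ - 2 * x0) / ϖ) ^ 2 - 4 * ((x0 ^ 2 - τ * x0 + δ) / ϖ ^ 2)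
            = (τ ^ 2 - 4 * δ) / ϖ ^ 2 := by
          field_simp
          ring
        rw [h3, map_div₀, map_pow, hϖ]
        rw [le_div_iff₀ (by simp)]
        refine le_trans ?_ hD
        rw [← exp_nsmul, ← exp_add, exp_le_exp]
        simp only [nsmul_eq_mul]
        push_cast
        omega
      obtain ⟨c, e, τ', δ', hc, e1, e2, hτ', hδ', hirr⟩ := ih _ _ hτ2 hδ2 hD2 hE1
      refine ⟨ϖ * c, x0 + ϖ * e, τ', δ', mul_ne_zero hϖ0 hc, ?_, ?_, hτ', hδ', hirr⟩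
      · have e1' : τ' * c * ϖ = τ - 2 * x0 - 2 * e * ϖ := by
          rw [e1]
          field_simp
        linear_combination e1'
      · have e2' : δ' * c ^ 2 * ϖ ^ 2
            = (e * ϖ) ^ 2 - (τ - 2 * x0) * (e * ϖ) + (x0 ^ 2 - τ * x0 + δ) := by
          rw [e2]
          field_simp
        linear_combination e2'

/-- **Normalisation.**  `τ, δ` arbitrary, discriminant not zero. -/
theorem normalise98 [CompleteSpace k] (ϖ : k) (hϖ : Valued.v ϖ = exp (-1 : ℤ)) (τ δ : k)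
    (hD : τ ^ 2 - 4 * δ ≠ 0) (hE : EvenVal98 τ δ) :
    ∃ c e τ' δ' : k, c ≠ 0 ∧ τ' * c = τ - 2 * e ∧ δ' * c ^ 2 = e ^ 2 - τ * e + δ ∧
      Valued.v τ' ≤ 1 ∧ Valued.v δ' ≤ 1 ∧
      ∀ x : k, Valued.v x ≤ 1 → Valued.v (x ^ 2 - τ' * x + δ') = 1 := by
  have hϖ0 : ϖ ≠ 0 := by
    intro h0
    rw [h0, map_zero] at hϖ
    exact exp_ne_zero hϖ.symm
  obtain ⟨M1, hM1⟩ := exists_le_exp98 (Valued.v τ)
  obtain ⟨M2, hM2⟩ := exists_le_exp98 (Valued.v δ)
  set M : ℕ := max M1 M2 with hM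
  have hvM : Valued.v (ϖ ^ M) = exp (-(M : ℤ)) := by
    rw [map_pow, hϖ, ← exp_nsmul]
    congr 1
    simp
  have hτ0 : Valued.v (τ * ϖ ^ M) ≤ 1 := by
    rw [map_mul, hvM, exp_neg, ← div_eq_mul_inv]
    refine (div_le_one₀ (by simp)).mpr (hM1.trans ?_)
    rw [exp_le_exp]
    exact_mod_cast le_max_left M1 M2
  have hδ0 : Valued.v (δ * (ϖ ^ M) ^ 2) ≤ 1 := by
    rw [map_mul, map_pow, hvM, ← exp_nsmul]
    have h2 : (2 • (-(M : ℤ))) = -((2 * M : ℕ) : ℤ) := by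
      simp only [nsmul_eq_mul]
      push_cast
      ring
    rw [h2, exp_neg, ← div_eq_mul_inv]
    refine (div_le_one₀ (by simp)).mpr (hM2.trans ?_)
    rw [exp_le_exp]
    have : (M2 : ℤ) ≤ M := by exact_mod_cast le_max_right M1 M2
    push_cast
    omega
  have hE0 : EvenVal98 (τ * ϖ ^ M) (δ * (ϖ ^ M) ^ 2) := by
    intro x
    obtain ⟨m, hm⟩ := hE (x / ϖ ^ M)
    refine ⟨m - M, ?_⟩
    have h1 : x ^ 2 - τ * ϖ ^ M * x + δ * (ϖ ^ M) ^ 2
        = ((x / ϖ ^ M) ^ 2 - τ * (x / ϖ ^ M) + δ) * (ϖ ^ M) ^ 2 := by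
      field_simp
    rw [h1, map_mul, hm, map_pow, hvM, ← exp_nsmul, ← exp_add]
    congr 1
    simp only [nsmul_eq_mul]
    push_cast
    ring
  have hD0 : (τ * ϖ ^ M) ^ 2 - 4 * (δ * (ϖ ^ M) ^ 2) ≠ 0 := by
    have h1 : (τ * ϖ ^ M) ^ 2 - 4 * (δ * (ϖ ^ M) ^ 2) = (τ ^ 2 - 4 * δ) * (ϖ ^ M) ^ 2 := by ring
    rw [h1]
    exact mul_ne_zero hD (pow_ne_zero 2 (pow_ne_zero M hϖ0))
  have hvD0 : Valued.v ((τ * ϖ ^ M) ^ 2 - 4 * (δ * (ϖ ^ M) ^ 2)) ≠ 0 :=
    (Valuation.ne_zero_iff _).mpr hD0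
  have hn : exp (-(((-log (Valued.v ((τ * ϖ ^ M) ^ 2 - 4 * (δ * (ϖ ^ M) ^ 2)))).toNat : ℕ) : ℤ))
      ≤ Valued.v ((τ * ϖ ^ M) ^ 2 - 4 * (δ * (ϖ ^ M) ^ 2)) := by
    rw [← le_log_iff_exp_le hvD0]
    have := Int.self_le_toNat (-log (Valued.v ((τ * ϖ ^ M) ^ 2 - 4 * (δ * (ϖ ^ M) ^ 2))))
    omega
  obtain ⟨c, e, τ', δ', hc, e1, e2, hτ', hδ', hirr⟩ :=
    descent98 ϖ hϖ _ _ _ hτ0 hδ0 hn hE0
  have hpM : ϖ ^ M ≠ 0 := pow_ne_zero M hϖ0
  refine ⟨c / ϖ ^ M, e / ϖ ^ M, τ', δ', div_ne_zero hc hpM, ?_, ?_, hτ', hδ', hirr⟩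
  · field_simp
    linear_combination e1
  · field_simp
    linear_combination e2

end Fermat.Agent.LT.T6.H98

end
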