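import Mathlib
import Fermat.Agent.LT.T6.H98.NewtonAbs

/-!
# Row LT, tower T6, sub-leaf T6.15c4 (helper98): residue fields and the lifting of a root

* `exists_simple_root_finite98`: a quadratic polynomial without a root over a finite field `κ`
  has a simple root in every field with `(#κ)²` elements receiving `κ`.
* `card_residue98`, `exists_resMap98`: the residue field of a valued field given by a finite
  system of representatives; the map of residue fields of a valuation preserving embedding.
* `exists_approx_root98`: an approximate simple root in `k'`.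
* `exists_root_of_approx98`: Hensel (by `exists_root_quadratic98`).
Mathlib only.
-/

set_option autoImplicit false
set_option linter.style.haveILetI false

noncomputable section

namespace Fermat.Agent.LT.T6.H98

open Polynomial

/-- Finite fields: a quadratic polynomial over `κ` without a root in `κ` has a simple root in
every field `κ'` with `(#κ)²` elements which receives `κ`. -/
theorem exists_simple_root_finite98 {κ κ' : Type} [Field κ] [Field κ'] [Finite κ] [Finite κ']
    (φ : κ →+* κ') (hcard : Nat.card κ' = Nat.card κ ^ 2) (t d : κ)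
    (hno : ∀ x : κ, x ^ 2 - t * x + d ≠ 0) :
    ∃ y : κ', y ^ 2 - φ t * y + φ d = 0 ∧ 2 * y - φ t ≠ 0 := by
  classical
  letI : Fintype κ := Fintype.ofFinite κ
  letI : Fintype κ' := Fintype.ofFinite κ'
  set p : κ[X] := X ^ 2 - C t * X + C d with hp
  have hdeg : p.natDegree = 2 := by
    rw [hp]
    compute_degree!
  have hmonic : p.Monic := by
    rw [hp]
    monicity!
  have hroots : p.roots = 0 := by
    rw [Multiset.eq_zero_iff_forall_notMem]
    intro x hx
    rw [mem_roots hmonic.ne_zero, IsRoot.def] at hx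
    apply hno x
    simpa [hp] using hx
  have hirr : Irreducible p :=
    (hmonic.irreducible_iff_roots_eq_zero_of_degree_le_three (by omega) (by omega)).mpr hroots
  have hdvd : p ∣ X ^ (Nat.card κ) ^ 2 - X :=
    (hirr.natDegree_dvd_iff_dvd_X_pow_card_pow_sub_X (n := 2)).mp (by rw [hdeg])
  have hdvd' : p.map φ ∣ X ^ (Fintype.card κ') - X := by
    have h1 := Polynomial.map_dvd φ hdvd
    rw [Fintype.card_eq_nat_card, hcard]
    simpa using h1
  have hne0 : (X ^ (Fintype.card κ') - X : κ'[X]) ≠ 0 :=
    FiniteField.X_pow_card_sub_X_ne_zero _ Fintype.one_lt_card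
  have hsplit : (X ^ (Fintype.card κ') - X : κ'[X]).Splits := by
    rw [splits_iff_card_roots, FiniteField.roots_X_pow_card_sub_X,
      FiniteField.X_pow_card_sub_X_natDegree_eq _ Fintype.one_lt_card]
    simp
  have hsp : (p.map φ).Splits := hsplit.of_dvd hne0 hdvd'
  have hdeg' : (p.map φ).degree ≠ 0 := by
    rw [degree_map, degree_eq_natDegree hmonic.ne_zero, hdeg]
    norm_num
  obtain ⟨y, hy⟩ := hsp.exists_eval_eq_zero hdeg'
  have hsep : p.Separable := PerfectField.separable_of_irreducible hirr
  have hder := hsep.eval₂_derivative_ne_zero φ (x := y) (by rwa [eval₂_eq_eval_map])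
  refine ⟨y, ?_, ?_⟩
  · simpa [hp] using hy
  · intro h0
    apply hder
    rw [hp]
    simp only [derivative_add, derivative_sub, derivative_X_pow, derivative_mul, derivative_C,
      derivative_X, eval₂_add, eval₂_sub, eval₂_mul, eval₂_C, eval₂_X, eval₂_pow]
    simp
    have h2 : φ 2 = 2 := map_ofNat φ 2
    rw [h2]
    linear_combination h0

section Residue

variable {k : Type} [Field k] [Valued k (WithZero (Multiplicative ℤ))]

/-- The valuation ring of `k`. -/
abbrev vring98 (k : Type) [Field k] [Valued k (WithZero (Multiplicative ℤ))] :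
    ValuationSubring k :=
  (Valued.v : Valuation k (WithZero (Multiplicative ℤ))).valuationSubring

/-- The residue field of `k`. -/
abbrev resField98 (k : Type) [Field k] [Valued k (WithZero (Multiplicative ℤ))] : Type :=
  IsLocalRing.ResidueField (vring98 k)

theorem residue_eq_zero_iff98 (x : vring98 k) :
    IsLocalRing.residue (vring98 k) x = 0 ↔ Valued.v (x : k) < 1 := by
  rw [IsLocalRing.residue_eq_zero_iff]
  exact Valuation.mem_maximalIdeal_iff k (Valued.v : Valuation k (WithZero (Multiplicative ℤ)))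

theorem residue_eq_iff98 (x y : vring98 k) :
    IsLocalRing.residue (vring98 k) x = IsLocalRing.residue (vring98 k) y
      ↔ Valued.v ((x : k) - (y : k)) < 1 := by
  rw [← sub_eq_zero, ← map_sub, residue_eq_zero_iff98]
  rfl

/-- A full system of representatives with `q` elements: the residue field has `q` elements. -/
theorem card_residue98 {q : ℕ} (T : Finset k) (hcard : T.card = q)
    (h1 : ∀ x ∈ T, Valued.v x ≤ 1)
    (h2 : ∀ x ∈ T, ∀ y ∈ T, x ≠ y → Valued.v (x - y) = 1)
    (h3 : ∀ z : k, Valued.v z ≤ 1 → ∃ x ∈ T, Valued.v (z - x) < 1) :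
    Finite (resField98 k) ∧ Nat.card (resField98 k) = q := by
  let g : T → resField98 k := fun x => IsLocalRing.residue (vring98 k) ⟨x.1, h1 x.1 x.2⟩
  have hinj : Function.Injective g := by
    intro x y hxy
    by_contra hne
    have hv := h2 x.1 x.2 y.1 y.2 (fun h => hne (Subtype.ext h))
    have hlt : Valued.v (x.1 - y.1) < 1 := (residue_eq_iff98 _ _).mp hxy
    rw [hv] at hlt
    exact lt_irrefl _ hlt
  have hsurj : Function.Surjective g := by
    intro z
    obtain ⟨w, rfl⟩ := IsLocalRing.residue_surjective z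
    obtain ⟨x, hx, hlt⟩ := h3 w.1 w.2
    refine ⟨⟨x, hx⟩, ?_⟩
    rw [residue_eq_iff98]
    show Valued.v (x - (w : k)) < 1
    rw [← Valuation.map_neg, neg_sub]
    exact hlt
  have hfin : Finite (resField98 k) := Finite.of_surjective g hsurj
  refine ⟨hfin, ?_⟩
  rw [← Nat.card_eq_of_bijective g ⟨hinj, hsurj⟩]
  simp [hcard]

end Residue

section ResMap

variable {k k' : Type} [Field k] [Field k'] [Valued k (WithZero (Multiplicative ℤ))]
  [Valued k' (WithZero (Multiplicative ℤ))]

/-- A valuation preserving embedding induces a homomorphism of the residue fields. -/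
theorem exists_resMap98 (i : k →+* k') (hi : ∀ x : k, Valued.v (i x) = Valued.v x) :
    ∃ φ : resField98 k →+* resField98 k', ∀ (x : k) (hx : Valued.v x ≤ 1),
      φ (IsLocalRing.residue (vring98 k) ⟨x, hx⟩)
        = IsLocalRing.residue (vring98 k') ⟨i x, by
            show Valued.v (i x) ≤ 1
            rw [hi]
            exact hx⟩ := by
  let iO : vring98 k →+* vring98 k' :=
    (i.comp (vring98 k).subtype).codRestrict (vring98 k') (fun x => by
      show Valued.v (i (x : k)) ≤ 1
      rw [hi]
      exact x.2)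
  let f : vring98 k →+* resField98 k' := (IsLocalRing.residue (vring98 k')).comp iO
  have hf : ∀ a ∈ IsLocalRing.maximalIdeal (vring98 k), f a = 0 := by
    intro a ha
    have ha' : Valued.v (a : k) < 1 :=
      (Valuation.mem_maximalIdeal_iff k
        (Valued.v : Valuation k (WithZero (Multiplicative ℤ)))).mp ha
    show IsLocalRing.residue (vring98 k') (iO a) = 0
    rw [residue_eq_zero_iff98]
    show Valued.v (i (a : k)) < 1
    rw [hi]
    exact ha'
  refine ⟨Ideal.Quotient.lift (IsLocalRing.maximalIdeal (vring98 k)) f hf, ?_⟩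
  intro x hx
  rfl

/-- **The reduction has a simple root in the residue field of `k'`.**  `k'` receives `k`
with the same valuation, the residue fields have `q` and `q²` elements, and the integral
polynomial `X² - τ X + δ` over `k` has no root modulo the maximal ideal. -/
theorem exists_approx_root98 (q : ℕ) (i : k →+* k')
    (hi : ∀ x : k, Valued.v (i x) = Valued.v x)
    (T : Finset k) (hT0 : T.card = q) (hT1 : ∀ x ∈ T, Valued.v x ≤ 1)
    (hT2 : ∀ x ∈ T, ∀ y ∈ T, x ≠ y → Valued.v (x - y) = 1)
    (hT3 : ∀ z : k, Valued.v z ≤ 1 → ∃ x ∈ T, Valued.v (z - x) < 1)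
    (T' : Finset k') (hT0' : T'.card = q ^ 2) (hT1' : ∀ x ∈ T', Valued.v x ≤ 1)
    (hT2' : ∀ x ∈ T', ∀ y ∈ T', x ≠ y → Valued.v (x - y) = 1)
    (hT3' : ∀ z : k', Valued.v z ≤ 1 → ∃ x ∈ T', Valued.v (z - x) < 1)
    (τ δ : k) (hτ : Valued.v τ ≤ 1) (hδ : Valued.v δ ≤ 1)
    (hc : ∀ x : k, Valued.v x ≤ 1 → Valued.v (x ^ 2 - τ * x + δ) = 1) :
    ∃ y : k', Valued.v y ≤ 1 ∧ Valued.v (y ^ 2 - i τ * y + i δ) < 1
      ∧ Valued.v (2 * y - i τ) = 1 := by
  obtain ⟨hfin, hcard⟩ := card_residue98 T hT0 hT1 hT2 hT3
  obtain ⟨hfin', hcard'⟩ := card_residue98 T' hT0' hT1' hT2' hT3'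
  obtain ⟨φ, hφ⟩ := exists_resMap98 i hi
  have hno : ∀ x : resField98 k,
      x ^ 2 - IsLocalRing.residue (vring98 k) ⟨τ, hτ⟩ * x
        + IsLocalRing.residue (vring98 k) ⟨δ, hδ⟩ ≠ 0 := by
    intro x
    obtain ⟨w, rfl⟩ := IsLocalRing.residue_surjective x
    rw [← map_pow, ← map_mul, ← map_sub, ← map_add]
    intro h0
    rw [residue_eq_zero_iff98] at h0
    have h1 := hc w.1 w.2
    have h2 : Valued.v ((w : k) ^ 2 - τ * (w : k) + δ) < 1 := h0
    rw [h1] at h2
    exact lt_irrefl _ h2
  obtain ⟨y, hy1, hy2⟩ := exists_simple_root_finite98 φ (by rw [hcard', hcard]) _ _ hno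
  obtain ⟨w, rfl⟩ := IsLocalRing.residue_surjective y
  rw [hφ τ hτ] at hy1 hy2
  rw [hφ δ hδ] at hy1
  refine ⟨w.1, w.2, ?_, ?_⟩
  · rw [← map_pow, ← map_mul, ← map_sub, ← map_add, residue_eq_zero_iff98] at hy1
    exact hy1
  · have h2 : (2 : resField98 k') = IsLocalRing.residue (vring98 k') 2 := (map_ofNat _ 2).symm
    rw [h2, ← map_mul, ← map_sub] at hy2
    have h3 : ¬ Valued.v (2 * (w : k') - i τ) < 1 := by
      intro hlt
      apply hy2
      rw [residue_eq_zero_iff98]
      exact hlt
    have h4 : Valued.v (2 * (w : k') - i τ) ≤ 1 :=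
      (2 * w - (⟨i τ, by
        show Valued.v (i τ) ≤ 1
        rw [hi]
        exact hτ⟩ : vring98 k')).2
    exact le_antisymm h4 (not_lt.mp h3)

end ResMap

section Hensel

variable {k' : Type} [Field k'] [Valued k' (WithZero (Multiplicative ℤ))]

/-- **Hensel's lemma for a quadratic polynomial**, simple approximate root. -/
theorem exists_root_of_approx98 [CompleteSpace k'] (t d y : k')
    (h1 : Valued.v (y ^ 2 - t * y + d) < 1) (h2 : Valued.v (2 * y - t) = 1) :
    ∃ x : k', x ^ 2 - t * x + d = 0 := by
  obtain ⟨z, hz⟩ := exists_root_quadratic98 (2 * y - t) (y ^ 2 - t * y + d) (by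
    rw [h2, one_pow]
    exact h1)
  refine ⟨y + z, ?_⟩
  linear_combination hz

end Hensel

end Fermat.Agent.LT.T6.H98

end
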