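import Mathlib
import Fermat.Agent.LT.T6.Spec
import Fermat.Agent.LT.T6.H159.VanishSpec
import Fermat.Agent.LT.T6.H159.NormSpec
import Fermat.Agent.LT.T6.H98.NewtonAbs
import Fermat.Agent.LT.T6.H98.ResidueAbs
import Fermat.Agent.LT.T6.H98.Descent

/-!
# Row LT, tower T6, sub-leaf T6.15c4 `Unr2C` (helper98): PROVED

`k'/k` unramified quadratic, `γ ∈ GL₂(k)` regular, without an eigenvalue in `k`, whose
centraliser contains no element with a uniformiser as determinant: the characteristic
polynomial of `γ` has a root in `k'`.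

Proof.  The centraliser contains `c (x - γ)`, of determinant `c² f(x)`, `f` the characteristic
polynomial: all values of `f` on `k` are nonzero of even order (`evenVal_of98`).  The descent on
the discriminant (`normalise98`) gives an affine substitution after which `f` is integral and
without a root modulo the maximal ideal; its reduction has a simple root in the residue field of
`k'` (`q²` elements, `exists_approx_root98`), which lifts (`exists_root_of_approx98`).
-/

set_option autoImplicit false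

open scoped Matrix

noncomputable section

namespace Fermat.Agent.LT.T6.H98

open WithZero Fermat.Agent.LT.T6

/-- The values of the characteristic polynomial of `γ` are nonzero of even order. -/
theorem evenVal_of98 {k : Type} [Field k] [Valued k Γ₀] (ϖ : k)
    (hϖ : Valued.v ϖ = exp (-1 : ℤ)) (γ : GL (Fin 2) k)
    (hne : ¬ HasEigen k γ) (hnr : ¬ HasRamUnif k γ) :
    EvenVal98 (γ : Matrix (Fin 2) (Fin 2) k).trace (γ : Matrix (Fin 2) (Fin 2) k).det := by
  have hϖ0 : ϖ ≠ 0 := by
    intro h0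
    rw [h0, map_zero] at hϖ
    exact exp_ne_zero hϖ.symm
  intro x
  have hfx : x ^ 2 - (γ : Matrix (Fin 2) (Fin 2) k).trace * x
      + (γ : Matrix (Fin 2) (Fin 2) k).det ≠ 0 := fun h => hne ⟨x, h⟩
  have hv0 : Valued.v (x ^ 2 - (γ : Matrix (Fin 2) (Fin 2) k).trace * x
      + (γ : Matrix (Fin 2) (Fin 2) k).det) ≠ 0 := (Valuation.ne_zero_iff _).mpr hfx
  have hv : Valued.v (x ^ 2 - (γ : Matrix (Fin 2) (Fin 2) k).trace * x
      + (γ : Matrix (Fin 2) (Fin 2) k).det)
      = exp (log (Valued.v (x ^ 2 - (γ : Matrix (Fin 2) (Fin 2) k).trace * x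
          + (γ : Matrix (Fin 2) (Fin 2) k).det))) := (exp_log hv0).symm
  rcases Int.even_or_odd' (log (Valued.v (x ^ 2 - (γ : Matrix (Fin 2) (Fin 2) k).trace * x
      + (γ : Matrix (Fin 2) (Fin 2) k).det))) with ⟨m, hm | hm⟩
  · exact ⟨m, by rw [hv, hm]⟩
  · exfalso
    apply hnr
    set c : k := ϖ ^ (m + 1) with hc
    have hc0 : c ≠ 0 := zpow_ne_zero _ hϖ0
    set A : Matrix (Fin 2) (Fin 2) k := (γ : Matrix (Fin 2) (Fin 2) k) with hA
    set N : Matrix (Fin 2) (Fin 2) k := c • (x • (1 : Matrix (Fin 2) (Fin 2) k) - A) with hN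
    have hdet : N.det = c ^ 2 * (x ^ 2 - A.trace * x + A.det) := by
      rw [hN, Matrix.det_fin_two, Matrix.det_fin_two, Matrix.trace_fin_two]
      simp only [Matrix.smul_apply, Matrix.sub_apply, Matrix.one_apply_eq, smul_eq_mul,
        Matrix.one_apply_ne (show (0 : Fin 2) ≠ 1 by decide),
        Matrix.one_apply_ne (show (1 : Fin 2) ≠ 0 by decide)]
      ring
    have hdet0 : N.det ≠ 0 := by
      rw [hdet]
      exact mul_ne_zero (pow_ne_zero 2 hc0) hfx
    refine ⟨Matrix.GeneralLinearGroup.mkOfDetNeZero N hdet0, ?_, ?_⟩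
    · apply Units.ext
      show N * A = A * N
      rw [hN]
      simp only [Matrix.smul_mul, Matrix.mul_smul, Matrix.sub_mul, Matrix.mul_sub,
        Matrix.one_mul, Matrix.mul_one]
    · show Valued.v N.det = exp (-1 : ℤ)
      rw [hdet, map_mul, hv, hm, map_pow, hc, map_zpow₀, hϖ, ← exp_zsmul, ← exp_nsmul,
        ← exp_add]
      congr 1
      simp only [nsmul_eq_mul, smul_eq_mul]
      push_cast
      ring

/-- **T6.15c4 `Unr2C`.** -/
theorem unr2C98 : H159.Unr2C := by
  intro k k' _ _ _ _ q i s hk hk' hext γ hreg hne hnr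
  haveI : CompleteSpace k := hk.complete
  haveI : CompleteSpace k' := hk'.complete
  obtain ⟨ϖ, hϖ⟩ := hk.unif
  obtain ⟨T, hT0, hT1, hT2, hT3⟩ := hk.residue
  obtain ⟨T', hT0', hT1', hT2', hT3'⟩ := hk'.residue
  have hi : ∀ x : k, Valued.v (i x) = Valued.v x := fun x => by
    have := hext.val_i x
    rwa [pow_one] at this
  have hD : (γ : Matrix (Fin 2) (Fin 2) k).trace ^ 2
      - 4 * (γ : Matrix (Fin 2) (Fin 2) k).det ≠ 0 := IsUnit.ne_zero hreg
  have hE := evenVal_of98 ϖ hϖ γ hne hnr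
  obtain ⟨c, e, τ', δ', hc, e1, e2, hτ', hδ', hirr⟩ := normalise98 ϖ hϖ _ _ hD hE
  obtain ⟨y0, -, hy1, hy2⟩ := exists_approx_root98 q i hi T hT0 hT1 hT2 hT3
    T' hT0' hT1' hT2' hT3' τ' δ' hτ' hδ' hirr
  obtain ⟨y, hy⟩ := exists_root_of_approx98 (i τ') (i δ') y0 hy1 hy2
  refine ⟨i c * y + i e, ?_⟩
  have e1' : i τ' * i c = i (γ : Matrix (Fin 2) (Fin 2) k).trace - 2 * i e := by
    rw [← map_mul, e1, map_sub, map_mul, map_ofNat]
  have e2' : i δ' * i c ^ 2 = i e ^ 2 - i (γ : Matrix (Fin 2) (Fin 2) k).trace * i e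
      + i (γ : Matrix (Fin 2) (Fin 2) k).det := by
    rw [← map_pow, ← map_mul, e2, map_add, map_sub, map_mul, map_pow]
  linear_combination (i c) ^ 2 * hy + (i c * y) * e1' - e2'

end Fermat.Agent.LT.T6.H98

end
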